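import Fermat.Agent.S19.B.GoodPos
import Fermat.Agent.S19.B.EvalRed
import Fermat.Agent.S19.Weil.EvGal
import Fermat.Agent.GAL.RED.Disc

/-!
# S19 / M2: invariant effective divisors of large degree whose reduction avoids a finite set (abstract form).

`y` a `Γ`-invariant Gauss unit with `deg (y)_∞ = deg (ȳ)_∞ > 0`.  Every finite subset `S` of `k` is fixed by
`s ↦ s ^ N` for arbitrarily large `N`.  `f := y ^ N - y + 1`: `(f)_∞ = N (y)_∞`, `(f̄)_∞ = N (ȳ)_∞`, so there is no
cancellation: `r_* (f)_0 = (f̄)_0`, and `f̄` takes the value `1` at the points `z` with `ȳ(z) ∈ S`.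
`𝔄 := (f)_0`.
-/

set_option autoImplicit false

namespace Fermat.Agent.S19

open AlgebraicCurve Fermat.Agent.Lib.RR Fermat.Agent.GAL.RED Fermat.Agent.S19.Weil

section one

variable {K F : Type*} [Field K] [Field F] [Algebra K F] [IsFF K F] [IsAlgClosed K]

omit [IsFF K F] [IsAlgClosed K] in
theorem Aux_ord_of_neg (y : F) {N : ℕ} (hN : 2 ≤ N) (P : Place K F) (h : P.ord y < 0) :
    P.ord (y ^ N - y + 1) = N * P.ord y := by
  have hy : y ≠ 0 := by
    rintro rfl
    simp at h
  have h1 : P.ord (-y + 1) = P.ord y := by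
    rw [ord_add_eq_of_lt P (neg_ne_zero.2 hy) one_ne_zero (by rw [GAL.RED.ord_neg]; simpa using h),
      GAL.RED.ord_neg]
  have h10 : -y + 1 ≠ 0 := by
    intro h0
    rw [h0] at h1
    simp at h1
    omega
  have h2 : y ^ N - y + 1 = y ^ N + (-y + 1) := by ring
  rw [h2, ord_add_eq_of_lt P (pow_ne_zero _ hy) h10, GAL.RED.ord_pow]
  rw [GAL.RED.ord_pow, h1]
  have : (2 : ℤ) ≤ N := by exact_mod_cast hN
  nlinarith

theorem Aux_ord_nonneg (y : F) (N : ℕ) (P : Place K F) (h : 0 ≤ P.ord y) :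
    0 ≤ P.ord (y ^ N - y + 1) := by
  have hy : y ∈ P.toValuationSubring := (mem_iff_ord P y).2 (Or.inr h)
  have hf : y ^ N - y + 1 ∈ P.toValuationSubring :=
    add_mem (sub_mem (pow_mem hy N) hy) (one_mem _)
  rcases (mem_iff_ord P _).1 hf with h0 | h0
  · rw [h0]; simp
  · exact h0

theorem Aux_poleDiv (y : F) {N : ℕ} (hN : 2 ≤ N) :
    poleDiv (K := K) (y ^ N - y + 1) = N • poleDiv (K := K) y := by
  ext P
  rw [Finsupp.smul_apply, poleDiv_apply, poleDiv_apply]
  rcases lt_or_ge (P.ord y) 0 with h | h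
  · have hN' : (0 : ℤ) ≤ N := Int.natCast_nonneg N
    rw [Aux_ord_of_neg y hN P h, max_eq_left (by nlinarith), max_eq_left (by omega)]
    simp
  · rw [max_eq_right (by have := Aux_ord_nonneg y N P h; omega), max_eq_right (by omega)]
    simp

omit [IsAlgClosed K] in
theorem Aux_divOf_eq (y : F) :
    divOf (K := K) y = poleDiv (K := K) y⁻¹ - poleDiv (K := K) y := by
  ext P
  rw [Finsupp.sub_apply, poleDiv_apply, poleDiv_apply, divOf_apply, P.ord_inv, neg_neg]
  rcases le_total 0 (P.ord y) with h | h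
  · rw [max_eq_left h, max_eq_right (by omega)]
    ring
  · rw [max_eq_right h, max_eq_left (by omega)]
    ring

omit [IsAlgClosed K] in
theorem Aux_degree_poleDiv_inv (y : F) :
    Divisor.degree (poleDiv (K := K) y⁻¹) = Divisor.degree (poleDiv (K := K) y) := by
  have h := degree_divOf (K := K) y
  rw [Aux_divOf_eq, map_sub] at h
  omega

omit [IsAlgClosed K] in
theorem Aux_poleDiv_smul (g : SemilinearAut K F) (y : F) :
    g • poleDiv (K := K) y = poleDiv (K := K) (g • y) := by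
  ext w
  rw [SemilinearAut.divisor_smul_apply, poleDiv_apply, poleDiv_apply]
  have h := SemilinearAut.ord_smul g (g⁻¹ • w) y
  rw [smul_inv_smul] at h
  rw [h]

end one

variable {K F k Fb : Type*} [Field K] [Field F] [Algebra K F] [Field k] [Field Fb] [Algebra k Fb]
  [IsFF K F] [IsAlgClosed K] [IsFF k Fb] [IsAlgClosed k]
  {R : RedData K F k Fb} {r : Place K F → Place k Fb}

/-- no cancellation if the degrees of the polar divisors agree. -/
theorem Aux_map_poleDiv (hr : IsRedMap R r) {y : F} (hy : R.red y ≠ 0)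
    (hdeg : Divisor.degree (poleDiv (K := K) y) = Divisor.degree (poleDiv (K := k) (R.red y))) :
    Finsupp.mapDomain r (poleDiv (K := K) y) = poleDiv (K := k) (R.red y) ∧
      Finsupp.mapDomain r (poleDiv (K := K) y⁻¹) = poleDiv (K := k) (R.red y)⁻¹ := by
  have h1 := hr.map_divOf y hy
  rw [Aux_divOf_eq, Aux_divOf_eq, mapDomain_sub'] at h1
  have hZ := mapDomain_nonneg r (EvalRed_poleDiv_nonneg (K := K) y⁻¹)
  have hP := mapDomain_nonneg r (EvalRed_poleDiv_nonneg (K := K) y)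
  have hle : 0 ≤ Finsupp.mapDomain r (poleDiv (K := K) y) - poleDiv (K := k) (R.red y) := by
    intro Q
    have e := DFunLike.congr_fun h1 Q
    have hZQ := hZ Q
    have hPQ := hP Q
    simp only [Finsupp.sub_apply, Finsupp.coe_zero, Pi.zero_apply, poleDiv_apply,
      Place.ord_inv, neg_neg] at e hZQ hPQ ⊢
    rcases le_total 0 (Q.ord (R.red y)) with h | h
    · rw [max_eq_right (by omega : -Q.ord (R.red y) ≤ 0)]
      omega
    · rw [max_eq_right h, max_eq_left (by omega : 0 ≤ -Q.ord (R.red y))] at e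
      rw [max_eq_left (by omega : 0 ≤ -Q.ord (R.red y))]
      omega
  have h0 := eq_zero_of_nonneg_of_degree hle (by rw [map_sub, degree_mapDomain, hdeg, sub_self])
  have h2 := sub_eq_zero.mp h0
  refine ⟨h2, ?_⟩
  rw [h2] at h1
  exact sub_left_injective h1

/-- **M2** (abstract form of the field `aux` of `GalRed`). -/
theorem exists_aux_divisor (hr : IsRedMap R r) {Γ : Type*} [Group Γ] (ρ : Γ →* SemilinearAut K F)
    {y : F} (hinv : ∀ τ, ρ τ • y = y) (hyO : y ∈ R.O)
    (hdeg : Divisor.degree (poleDiv (K := K) y) = Divisor.degree (poleDiv (K := k) (R.red y)))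
    (hpos : 0 < Divisor.degree (poleDiv (K := K) y))
    (hk : ∀ (S : Finset k) (n : ℕ), ∃ N, n ≤ N ∧ 2 ≤ N ∧ ∀ s ∈ S, s ^ N = s)
    (Z : Finset (Place k Fb)) (n : ℕ) :
    ∃ 𝔄 : Divisor K F, 0 ≤ 𝔄 ∧ (n : ℤ) ≤ Divisor.degree 𝔄 ∧ (∀ τ, ρ τ • 𝔄 = 𝔄) ∧
      ∀ P ∈ 𝔄.support, r P ∉ Z := by
  classical
  obtain ⟨N, hnN, hN2, hS⟩ := hk (Z.image fun z => ev z (R.red y)) n
  set f : F := y ^ N - y + 1 with hf
  have hfO : f ∈ R.O := add_mem (sub_mem (pow_mem hyO N) hyO) (one_mem _)
  have hredf : R.red f = R.red y ^ N - R.red y + 1 := by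
    rw [hf, R.red_add (sub_mem (pow_mem hyO N) hyO) (one_mem _), R.red_sub (pow_mem hyO N) hyO,
      R.red_pow, R.red_one]
  have hpf : poleDiv (K := K) f = N • poleDiv (K := K) y := Aux_poleDiv y hN2
  have hpfb : poleDiv (K := k) (R.red f) = N • poleDiv (K := k) (R.red y) := by
    rw [hredf]
    exact Aux_poleDiv _ hN2
  have hdegf : Divisor.degree (poleDiv (K := K) f) = Divisor.degree (poleDiv (K := k) (R.red f)) := by
    rw [hpf, hpfb, map_nsmul, map_nsmul, hdeg]
  have hN1 : (1 : ℤ) ≤ N := by exact_mod_cast (by omega : 1 ≤ N)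
  have hdegf' : (N : ℤ) ≤ Divisor.degree (poleDiv (K := K) f) := by
    rw [hpf, map_nsmul, nsmul_eq_mul]
    nlinarith
  have hne : R.red f ≠ 0 := by
    intro h0
    rw [hdegf, h0] at hdegf'
    have : poleDiv (K := k) (0 : Fb) = 0 := by
      ext P
      simp [poleDiv_apply]
    rw [this, map_zero] at hdegf'
    omega
  have hmap := (Aux_map_poleDiv hr hne hdegf).2
  refine ⟨poleDiv (K := K) f⁻¹, EvalRed_poleDiv_nonneg _, ?_, fun τ => ?_, fun P hP hPZ => ?_⟩
  · rw [Aux_degree_poleDiv_inv]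
    have : (n : ℤ) ≤ N := by exact_mod_cast hnN
    omega
  · have hfinv : ρ τ • f = f := by
      rw [hf, smul_add, smul_sub, smul_pow', hinv τ, smul_one]
    have h2 : ρ τ • f⁻¹ = f⁻¹ := by
      have h3 : ρ τ • f⁻¹ = (ρ τ • f)⁻¹ := map_inv₀ (SemilinearAut.toRingAut (ρ τ)) f
      rw [h3, hfinv]
    rw [Aux_poleDiv_smul, h2]
  · have h1 : Finsupp.mapDomain r (poleDiv (K := K) f⁻¹) (r P) ≠ 0 := by
      intro h0
      exact (mapDomain_apply_eq_zero_iff r (EvalRed_poleDiv_nonneg (K := K) f⁻¹) (r P)).1 h0 P hP rfl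
    rw [hmap, poleDiv_apply, Place.ord_inv, neg_neg] at h1
    have h2 : 0 < (r P).ord (R.red f) := by
      by_contra hcon
      exact h1 (max_eq_right (not_lt.1 hcon))
    rcases lt_or_ge ((r P).ord (R.red y)) 0 with h | h
    · rw [hredf, Aux_ord_of_neg _ hN2 _ h] at h2
      nlinarith
    · have hy' : R.red y ∈ (r P).toValuationSubring := (mem_iff_ord _ _).2 (Or.inr h)
      have h3 : ev (r P) (R.red f) = 1 := by
        rw [hredf, ev_add _ (sub_mem (pow_mem hy' N) hy') (one_mem _),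
          ev_sub _ (pow_mem hy' N) hy', ev_pow, ev_one,
          hS _ (Finset.mem_image.2 ⟨r P, hPZ, rfl⟩), sub_self, zero_add]
      rw [ev_eq_zero_of_ord_pos _ h2] at h3
      exact zero_ne_one h3

end Fermat.Agent.S19
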