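import Fermat.Agent.S19.M.Orb
import Fermat.Agent.S19.M.AuxDiv
import Fermat.Agent.S19.Top.Final
import Fermat.Agent.DR.Conc.Level
import Fermat.Agent.S27.CharP
import Fermat.Agent.GAL.Hecke.SeriesRed

/-!
# S19 / M3: the fields `orbK`, `orbP`, `aux` of `GalRed` for the Gauss reduction datum `DR.Conc.RM A M hM` on
`FN M` and the arithmetic Galois action.
-/

set_option autoImplicit false

namespace Fermat.Agent.S19

open AlgebraicCurve ModularCurve Fermat.Agent.Lib.RR Fermat.Agent.GAL.RED Fermat.Agent.S19.Weil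

theorem rhoN_smul_jF (M : ℕ) (σ : GQ) : rhoN M σ • S24.jF M = S24.jF M := by
  apply Subtype.ext
  rw [coe_arithmeticGalois_smul]
  exact coeffMap_coeffEmb σ _

theorem jF_not_mem_range (M : ℕ) [NeZero M] : S24.jF M ∉ Set.range (algebraMap Qb (FN M)) := by
  rintro ⟨a, ha⟩
  apply S24.transcendental_jF M
  rw [← ha]
  exact isAlgebraic_algebraMap a

theorem orbK_rhoN (M : ℕ) (b : Qb) :
    (Set.range fun τ : GQ => SemilinearAut.baseAut (rhoN M τ) b).Finite := orbK_Qb b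

theorem orbP_rhoN (M : ℕ) [NeZero M] [IsFF Qb (FN M)] (P : Place Qb (FN M)) :
    (Set.range fun τ : GQ => rhoN M τ • P).Finite :=
  orbP_of_invariant (rhoN M) (orbK_rhoN M) (rhoN_smul_jF M) (jF_not_mem_range M) P

theorem Conc_pow_fix {κ : Type*} [Monoid κ] {s : κ} {q a : ℕ} (h : s ^ (q ^ a) = s) (t : ℕ) :
    s ^ (q ^ (a * t)) = s := by
  induction t with
  | zero => simp
  | succ t ih => rw [Nat.mul_succ, pow_add, pow_mul, ih, h]

/-- every finite subset of the residue field is fixed by arbitrarily large powers of the Frobenius. -/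
theorem exists_pow_fix (A : ValuationSubring Qb) {ℓ : ℕ} (hℓ : ℓ.Prime) (hA : A.LiesOverPrime ℓ)
    (S : Finset (IsLocalRing.ResidueField ↥A)) (n : ℕ) :
    ∃ N, n ≤ N ∧ 2 ≤ N ∧ ∀ s ∈ S, s ^ N = s := by
  classical
  have hG : IsGalois ℚ Qb := Fermat.Agent.Lib.Frobenius.isGalois_algebraicClosure inferInstance
  have halg : Algebra.IsAlgebraic ℚ Qb := hG.to_normal.toIsAlgebraic
  have hchar := Fermat.Agent.GAL.Hecke.charP_residueField A hℓ hA
  choose e he0 he using fun s : IsLocalRing.ResidueField ↥A =>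
    Fermat.Agent.S27.exists_pow_eq_self_residueField A ℓ hℓ s
  set m := (∏ s ∈ S, e s) * (n + 1) with hm
  have hprod : 0 < ∏ s ∈ S, e s := Finset.prod_pos fun s _ => he0 s
  have hmn : n + 1 ≤ m := by
    rw [hm]
    exact Nat.le_mul_of_pos_left _ hprod
  have hlt : m < ℓ ^ m := Nat.lt_pow_self hℓ.one_lt
  refine ⟨ℓ ^ m, by omega, by omega, fun s hs => ?_⟩
  obtain ⟨c, hc⟩ := Finset.dvd_prod_of_mem e hs
  have : m = e s * (c * (n + 1)) := by rw [hm, hc, mul_assoc]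
  rw [this]
  exact Conc_pow_fix (he s) _

variable (A : ValuationSubring Qb) (M : ℕ) [NeZero M]
  (hM : ((M : ℕ) : IsLocalRing.ResidueField ↥A) ≠ 0)

/-- the field `aux` of `GalRed`. -/
theorem aux_RM {ℓ : ℕ} (hℓ : ℓ.Prime) (hA : A.LiesOverPrime ℓ) [IsFF Qb (FN M)]
    [IsAlgClosed (IsLocalRing.ResidueField ↥A)]
    [IsFF (IsLocalRing.ResidueField ↥A) (GAL.Igusa.E (IsLocalRing.ResidueField ↥A) M)]
    {r : Place Qb (FN M) →
      Place (IsLocalRing.ResidueField ↥A) (GAL.Igusa.E (IsLocalRing.ResidueField ↥A) M)}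
    (hr : IsRedMap (DR.Conc.RM A M hM) r)
    (Z : Finset (Place (IsLocalRing.ResidueField ↥A) (GAL.Igusa.E (IsLocalRing.ResidueField ↥A) M)))
    (n : ℕ) :
    ∃ 𝔄 : Divisor Qb (FN M), 0 ≤ 𝔄 ∧ (n : ℤ) ≤ Divisor.degree 𝔄 ∧ (∀ τ, rhoN M τ • 𝔄 = 𝔄) ∧
      ∀ P ∈ 𝔄.support, r P ∉ Z := by
  have hred := DR.Conc.RM_red_jF A M hM
  have hne : (DR.Conc.RM A M hM).red (S24.jF M) ≠ 0 := by
    rw [hred]
    intro h0
    exact GAL.Igusa.transcendental_jb (IsLocalRing.ResidueField ↥A) M (h0 ▸ isAlgebraic_zero)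
  refine exists_aux_divisor hr (rhoN M) (rhoN_smul_jF M)
    ((DR.Conc.RM A M hM).mem_of_red_ne_zero hne) ?_ ?_ (exists_pow_fix A hℓ hA) Z n
  · rw [hred, DR.Conc.Level_degree_poleDiv_jF, DR.Conc.Level_degree_poleDiv_jb A M hM]
  · rw [DR.Conc.Level_degree_poleDiv_jF]
    exact_mod_cast GAL.DegreeAlpha.dedekindPsi_pos M

end Fermat.Agent.S19
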