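import Fermat.Agent.S19.B.Defs
import Fermat.Agent.S19.Weil.EvGal
import Fermat.Agent.Lib.Frobenius

/-!
# S19 / M1: finite orbits on the places (abstract form) and on the constants `ℚ̄`.

`y` a `Γ`-invariant non constant function, finite orbits on the constants.  Every place `P` is a zero or a pole of
an invariant non zero function `f` (`f = y` at a pole of `y`; `f = ∏_c (y - c)`, `c` in the orbit of `y(P)`,
otherwise), and `τ P` is again a zero or a pole of `f`.
-/

set_option autoImplicit false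

namespace Fermat.Agent.S19

open AlgebraicCurve Fermat.Agent.Lib.RR Fermat.Agent.S19.Weil

variable {K F : Type*} [Field K] [Field F] [Algebra K F] [IsFF K F] [IsAlgClosed K]
  {Γ : Type*} [Group Γ]

omit [IsAlgClosed K] in
/-- the orbit of `P` is finite if `P` is a zero or a pole of an invariant function. -/
theorem Orb_finite_of_ord_ne_zero (ρ : Γ →* SemilinearAut K F) {f : F} (hinv : ∀ τ, ρ τ • f = f)
    {P : Place K F} (hP : P.ord f ≠ 0) : (Set.range fun τ : Γ => ρ τ • P).Finite := by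
  refine Set.Finite.subset (divOf (K := K) f).support.finite_toSet ?_
  rintro _ ⟨τ, rfl⟩
  rw [Finset.mem_coe, Finsupp.mem_support_iff, divOf_apply]
  have h := SemilinearAut.ord_smul (ρ τ) P f
  rw [hinv τ] at h
  show (ρ τ • P).ord f ≠ 0
  rw [h]
  exact hP

theorem Orb_exists_invariant (ρ : Γ →* SemilinearAut K F)
    (orbK : ∀ b : K, (Set.range fun τ : Γ => SemilinearAut.baseAut (ρ τ) b).Finite)
    {y : F} (hinv : ∀ τ, ρ τ • y = y) (hy : y ∉ Set.range (algebraMap K F)) (P : Place K F) :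
    ∃ f : F, (∀ τ, ρ τ • f = f) ∧ P.ord f ≠ 0 := by
  classical
  by_cases hneg : P.ord y < 0
  · exact ⟨y, hinv, hneg.ne⟩
  have hyP : y ∈ P.toValuationSubring := (mem_iff_ord P y).2 (Or.inr (not_lt.1 hneg))
  set b := ev P y with hb
  set S : Finset K := (orbK b).toFinset with hS
  have hmemS : ∀ c, c ∈ S ↔ ∃ τ : Γ, SemilinearAut.baseAut (ρ τ) b = c := by
    intro c
    rw [hS, Set.Finite.mem_toFinset]
    rfl
  refine ⟨∏ c ∈ S, (y - algebraMap K F c), fun τ => ?_, ?_⟩
  · rw [Finset.smul_prod']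
    refine Finset.prod_bij (fun c _ => SemilinearAut.baseAut (ρ τ) c) ?_ ?_ ?_ ?_
    · intro c hc
      obtain ⟨σ, rfl⟩ := (hmemS c).1 hc
      refine (hmemS _).2 ⟨τ * σ, ?_⟩
      rw [map_mul]
      rfl
    · intro c _ c' _ h
      exact (SemilinearAut.baseAut (ρ τ)).injective h
    · intro c hc
      obtain ⟨σ, rfl⟩ := (hmemS c).1 hc
      refine ⟨SemilinearAut.baseAut (ρ (τ⁻¹ * σ)) b, (hmemS _).2 ⟨_, rfl⟩, ?_⟩
      have : ρ σ = ρ τ * ρ (τ⁻¹ * σ) := by rw [← map_mul, mul_inv_cancel_left]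
      rw [this]
      rfl
    · intro c _
      rw [smul_sub, hinv τ, SemilinearAut.smul_algebraMap]
  · have hne : ∏ c ∈ S, (y - algebraMap K F c) ≠ 0 := by
      rw [Finset.prod_ne_zero_iff]
      intro c _ h0
      exact hy ⟨c, (sub_eq_zero.1 h0).symm⟩
    have hmem : ∀ c ∈ S, y - algebraMap K F c ∈ P.toValuationSubring := fun c _ =>
      sub_mem hyP (Ev_algebraMap_mem P c)
    have hev : ev P (∏ c ∈ S, (y - algebraMap K F c)) = 0 := by
      rw [ev_prod P S _ hmem]
      refine Finset.prod_eq_zero ((hmemS b).2 ⟨1, by rw [map_one]; rfl⟩) ?_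
      rw [ev_sub P hyP (Ev_algebraMap_mem P b), ev_algebraMap, ← hb, sub_self]
    rcases (Ev_ev_eq_zero_iff P (prod_mem hmem)).1 hev with h | h
    · exact absurd h hne
    · exact h.ne'

/-- finite orbits on the places. -/
theorem orbP_of_invariant (ρ : Γ →* SemilinearAut K F)
    (orbK : ∀ b : K, (Set.range fun τ : Γ => SemilinearAut.baseAut (ρ τ) b).Finite)
    {y : F} (hinv : ∀ τ, ρ τ • y = y) (hy : y ∉ Set.range (algebraMap K F)) (P : Place K F) :
    (Set.range fun τ : Γ => ρ τ • P).Finite := by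
  obtain ⟨f, hf, hP⟩ := Orb_exists_invariant ρ orbK hinv hy P
  exact Orb_finite_of_ord_ne_zero ρ hf hP

/-- finite orbits of `G_ℚ` on `ℚ̄`. -/
theorem orbK_Qb (b : Qb) : (Set.range fun τ : GQ => τ b).Finite := by
  have hG : IsGalois ℚ Qb := Fermat.Agent.Lib.Frobenius.isGalois_algebraicClosure inferInstance
  have hint : IsIntegral ℚ b := hG.to_normal.isIntegral b
  refine Set.Finite.subset ((minpoly ℚ b).rootSet_finite Qb) ?_
  rintro _ ⟨τ, rfl⟩
  rw [Polynomial.mem_rootSet]
  refine ⟨minpoly.ne_zero hint, ?_⟩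
  show Polynomial.aeval (τ b) (minpoly ℚ b) = 0
  rw [Polynomial.aeval_algEquiv, AlgHom.comp_apply, minpoly.aeval, map_zero]

end Fermat.Agent.S19
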